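/-
Programme S33, brick A4'-minp (767 (i), helper64): **minimal primes of a noetherian reduced ring and
free modules.**  Mathlib only.

`T` a commutative noetherian reduced ring, `V` a free `T`-module.

Ring:
* `finite_minimalPrimes`        : finitely many minimal primes;
* `eq_zero_of_forall_mem`       : `(∀ 𝔭 minimal, x ∈ 𝔭) → x = 0`  (`⋂ 𝔭 = 0`);
* `exists_ann_eq`               : for `𝔭` minimal there is `s ∉ 𝔭`, lying in every other minimal prime,
                                  with `t * s = 0 ↔ t ∈ 𝔭`  (`Ann s = 𝔭`);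
* `isField_localization`        : `T_𝔭` is a field.
Free modules:
* `mem_smul_top_iff_repr`       : `x ∈ 𝔞 V ↔` all coordinates of `x` lie in `𝔞`;
* `eq_zero_of_forall_mem_smul_top` : `(∀ 𝔭 minimal, x ∈ 𝔭 V) → x = 0`  (`⋂ 𝔭 V = 0`);
* `mem_smul_top_of_smul_eq_zero`: `𝔭` prime, `s ∉ 𝔭`, `s • x = 0 → x ∈ 𝔭 V`;
* `smul_eq_zero_iff_mem_smul_top` : if `Ann s = 𝔭` then `s • x = 0 ↔ x ∈ 𝔭 V`;
* `quotEquivRange`              : `V ⧸ 𝔭 V ≃ₗ[T] s V`, `mk v ↦ s • v`, compatible with every `T`-linear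
                                  endomorphism of `V` (`quotEquivRange_mapQ`);
* `forall_mem_smul_top_of_smul` : an endomorphism `c` with `c (s • v) = 0` for all `v` has `c V ⊆ 𝔭 V`;
* `eq_zero_of_forall_range_le`  : an endomorphism `c` with `c V ⊆ 𝔭 V` for every minimal `𝔭` is `0`.
-/
import Mathlib

set_option autoImplicit false
set_option linter.unusedSectionVars false
set_option linter.style.haveILetI false

noncomputable section

namespace Fermat.Agent.S33P.MinPrime64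

/-! ### The ring -/

section Ring

variable (T : Type*) [CommRing T] [IsNoetherianRing T]

theorem finite_minimalPrimes : (minimalPrimes T).Finite :=
  minimalPrimes.finite_of_isNoetherianRing T

variable {T} [IsReduced T]

/-- `⋂ 𝔭 = 0` over the minimal primes of a reduced ring. -/
theorem eq_zero_of_forall_mem {x : T} (h : ∀ 𝔭 ∈ minimalPrimes T, x ∈ 𝔭) : x = 0 := by
  have h1 : x ∈ sInf (minimalPrimes T) := Ideal.mem_sInf.2 fun {𝔭} h𝔭 => h 𝔭 h𝔭
  rw [minimalPrimes, Ideal.sInf_minimalPrimes] at h1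
  have h2 : x ∈ nilradical T := h1
  rwa [nilradical_eq_zero, Ideal.zero_eq_bot, Ideal.mem_bot] at h2

/-- For a minimal prime `𝔭` of a noetherian reduced ring there is `s ∉ 𝔭`, in all the other
minimal primes, with `Ann s = 𝔭`. -/
theorem exists_ann_eq {𝔭 : Ideal T} (h𝔭 : 𝔭 ∈ minimalPrimes T) :
    ∃ s : T, s ∉ 𝔭 ∧ (∀ 𝔮 ∈ minimalPrimes T, 𝔮 ≠ 𝔭 → s ∈ 𝔮) ∧ ∀ t : T, t * s = 0 ↔ t ∈ 𝔭 := by
  classical
  have hprime : 𝔭.IsPrime := h𝔭.1.1
  set F : Finset (Ideal T) := (finite_minimalPrimes T).toFinset.erase 𝔭 with hF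
  have hnle : ¬ F.inf id ≤ 𝔭 := by
    rw [hprime.inf_le']
    rintro ⟨𝔮, h𝔮F, h𝔮le⟩
    obtain ⟨hne, h𝔮⟩ := Finset.mem_erase.1 h𝔮F
    have h𝔮min : 𝔮 ∈ minimalPrimes T := (finite_minimalPrimes T).mem_toFinset.1 h𝔮
    exact hne (le_antisymm h𝔮le (h𝔭.2 h𝔮min.1 h𝔮le))
  obtain ⟨s, hsF, hs𝔭⟩ := SetLike.not_le_iff_exists.1 hnle
  have hs𝔮 : ∀ 𝔮 ∈ minimalPrimes T, 𝔮 ≠ 𝔭 → s ∈ 𝔮 := by
    intro 𝔮 h𝔮 hne
    have : F.inf id ≤ 𝔮 :=
      Finset.inf_le (f := id)
        (Finset.mem_erase.2 ⟨hne, (finite_minimalPrimes T).mem_toFinset.2 h𝔮⟩)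
    exact this hsF
  refine ⟨s, hs𝔭, hs𝔮, fun t => ⟨fun hts => ?_, fun ht => ?_⟩⟩
  · have : t * s ∈ 𝔭 := hts ▸ 𝔭.zero_mem
    exact (hprime.mem_or_mem this).resolve_right hs𝔭
  · refine eq_zero_of_forall_mem fun 𝔮 h𝔮 => ?_
    by_cases hne : 𝔮 = 𝔭
    · subst hne
      exact 𝔮.mul_mem_right _ ht
    · exact 𝔮.mul_mem_left _ (hs𝔮 𝔮 h𝔮 hne)

/-- The localisation of a reduced ring at a minimal prime is a field. -/
theorem isField_localization {𝔭 : Ideal T} (h𝔭 : 𝔭 ∈ minimalPrimes T) :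
    haveI : 𝔭.IsPrime := h𝔭.1.1
    IsField (Localization.AtPrime 𝔭) := by
  haveI : 𝔭.IsPrime := h𝔭.1.1
  rw [IsLocalRing.isField_iff_maximalIdeal_eq]
  haveI : Subsingleton (PrimeSpectrum (Localization.AtPrime 𝔭)) :=
    IsLocalization.subsingleton_primeSpectrum_of_mem_minimalPrimes 𝔭 h𝔭 _
  -- every prime equals the maximal ideal, so the maximal ideal is the nilradical, which is `0`
  have hnil : nilradical (Localization.AtPrime 𝔭) = IsLocalRing.maximalIdeal _ := by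
    rw [nilradical_eq_sInf]
    apply le_antisymm
    · exact sInf_le (IsLocalRing.maximalIdeal.isMaximal _).isPrime
    · refine le_sInf fun J hJ => ?_
      have hJ' : J.IsPrime := hJ
      have : (⟨J, hJ'⟩ : PrimeSpectrum (Localization.AtPrime 𝔭)) =
          ⟨IsLocalRing.maximalIdeal _, (IsLocalRing.maximalIdeal.isMaximal _).isPrime⟩ :=
        Subsingleton.elim _ _
      exact (congrArg PrimeSpectrum.asIdeal this).ge
  rw [← hnil, nilradical_eq_zero, Ideal.zero_eq_bot]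

end Ring

/-! ### Free modules -/

section Module

variable {T : Type*} [CommRing T] {V : Type*} [AddCommGroup V] [Module T V]

/-- Membership in `𝔞 V` in coordinates. -/
theorem mem_smul_top_iff_repr {ι : Type*} (b : Module.Basis ι T V) (𝔞 : Ideal T) (x : V) :
    x ∈ 𝔞 • (⊤ : Submodule T V) ↔ ∀ i, b.repr x i ∈ 𝔞 := by
  constructor
  · intro hx i
    refine Submodule.smul_induction_on hx (fun r hr v _ => ?_) (fun y z hy hz => ?_)
    · rw [map_smul, Finsupp.smul_apply, smul_eq_mul]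
      exact 𝔞.mul_mem_right _ hr
    · rw [map_add, Finsupp.add_apply]
      exact 𝔞.add_mem hy hz
  · intro h
    rw [← b.linearCombination_repr x, Finsupp.linearCombination_apply]
    exact Submodule.sum_mem _ fun i _ =>
      Submodule.smul_mem_smul (h i) Submodule.mem_top

variable [Module.Free T V]

/-- `𝔭` prime, `s ∉ 𝔭`, `s • x = 0 ⇒ x ∈ 𝔭 V`. -/
theorem mem_smul_top_of_smul_eq_zero {𝔭 : Ideal T} [h𝔭 : 𝔭.IsPrime] {s : T} (hs : s ∉ 𝔭) {x : V}
    (h : s • x = 0) : x ∈ 𝔭 • (⊤ : Submodule T V) := by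
  rw [mem_smul_top_iff_repr (Module.Free.chooseBasis T V)]
  intro i
  have h1 : s * (Module.Free.chooseBasis T V).repr x i = 0 := by
    have := congrArg (fun y => (Module.Free.chooseBasis T V).repr y i) h
    simpa using this
  have h2 : s * (Module.Free.chooseBasis T V).repr x i ∈ 𝔭 := h1 ▸ 𝔭.zero_mem
  exact (h𝔭.mem_or_mem h2).resolve_left hs

/-- If `Ann s = 𝔭` then `s • x = 0 ↔ x ∈ 𝔭 V`. -/
theorem smul_eq_zero_iff_mem_smul_top {𝔭 : Ideal T} [𝔭.IsPrime] {s : T} (hs : s ∉ 𝔭)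
    (hann : ∀ t : T, t * s = 0 ↔ t ∈ 𝔭) (x : V) :
    s • x = 0 ↔ x ∈ 𝔭 • (⊤ : Submodule T V) := by
  refine ⟨mem_smul_top_of_smul_eq_zero hs, fun hx => ?_⟩
  refine Submodule.smul_induction_on hx (fun r hr v _ => ?_) (fun y z hy hz => ?_)
  · rw [smul_smul, mul_comm, (hann r).2 hr, zero_smul]
  · rw [smul_add, hy, hz, add_zero]

/-- An endomorphism killing `s V` maps `V` into `𝔭 V` (`s ∉ 𝔭`). -/
theorem forall_mem_smul_top_of_smul {𝔭 : Ideal T} [𝔭.IsPrime] {s : T} (hs : s ∉ 𝔭)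
    (c : V →ₗ[T] V) (hc : ∀ v, c (s • v) = 0) (v : V) : c v ∈ 𝔭 • (⊤ : Submodule T V) :=
  mem_smul_top_of_smul_eq_zero hs (by rw [← map_smul, hc])

variable [IsNoetherianRing T] [IsReduced T]

/-- `⋂ 𝔭 V = 0` over the minimal primes. -/
theorem eq_zero_of_forall_mem_smul_top {x : V}
    (h : ∀ 𝔭 ∈ minimalPrimes T, x ∈ 𝔭 • (⊤ : Submodule T V)) : x = 0 := by
  apply (Module.Free.chooseBasis T V).repr.injective
  ext i
  rw [map_zero, Finsupp.zero_apply]
  exact eq_zero_of_forall_mem fun 𝔭 h𝔭 =>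
    (mem_smul_top_iff_repr (Module.Free.chooseBasis T V) 𝔭 x).1 (h 𝔭 h𝔭) i

/-- An endomorphism mapping `V` into `𝔭 V` for every minimal prime `𝔭` is zero. -/
theorem eq_zero_of_forall_range_le (c : V →ₗ[T] V)
    (h : ∀ 𝔭 ∈ minimalPrimes T, ∀ v, c v ∈ 𝔭 • (⊤ : Submodule T V)) : c = 0 :=
  LinearMap.ext fun v => eq_zero_of_forall_mem_smul_top fun 𝔭 h𝔭 => h 𝔭 h𝔭 v

end Module

/-! ### `V ⧸ 𝔭 V ≅ s V` -/

section Quot

variable {T : Type*} [CommRing T] {V : Type*} [AddCommGroup V] [Module T V] [Module.Free T V]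
  {𝔭 : Ideal T} [𝔭.IsPrime] {s : T}

/-- multiplication by `s` on `V`. -/
abbrev mulBy (T : Type*) [CommRing T] (V : Type*) [AddCommGroup V] [Module T V] (s : T) :
    V →ₗ[T] V := LinearMap.lsmul T V s

theorem ker_mulBy (hs : s ∉ 𝔭) (hann : ∀ t : T, t * s = 0 ↔ t ∈ 𝔭) :
    LinearMap.ker (mulBy T V s) = 𝔭 • (⊤ : Submodule T V) := by
  ext x
  rw [LinearMap.mem_ker, LinearMap.lsmul_apply]
  exact smul_eq_zero_iff_mem_smul_top hs hann x

/-- **`V ⧸ 𝔭 V ≃ₗ[T] s V`** when `Ann s = 𝔭`. -/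
def quotEquivRange (hs : s ∉ 𝔭) (hann : ∀ t : T, t * s = 0 ↔ t ∈ 𝔭) :
    (V ⧸ 𝔭 • (⊤ : Submodule T V)) ≃ₗ[T] LinearMap.range (mulBy T V s) :=
  (Submodule.quotEquivOfEq _ _ (ker_mulBy hs hann).symm).trans
    (LinearMap.quotKerEquivRange (mulBy T V s))

@[simp] theorem quotEquivRange_mk (hs : s ∉ 𝔭) (hann : ∀ t : T, t * s = 0 ↔ t ∈ 𝔭) (v : V) :
    ((quotEquivRange (V := V) hs hann (Submodule.Quotient.mk v) :
      LinearMap.range (mulBy T V s)) : V) = s • v := rfl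

/-- A `T`-linear endomorphism preserves `𝔭 V`. -/
theorem smul_top_le_comap (f : V →ₗ[T] V) :
    𝔭 • (⊤ : Submodule T V) ≤ (𝔭 • (⊤ : Submodule T V)).comap f := by
  intro x hx
  rw [Submodule.mem_comap]
  refine Submodule.smul_induction_on hx (fun r hr v _ => ?_) (fun y z hy hz => ?_)
  · rw [map_smul]
    exact Submodule.smul_mem_smul hr Submodule.mem_top
  · rw [map_add]
    exact Submodule.add_mem _ hy hz

/-- A `T`-linear endomorphism preserves `s V`. -/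
theorem map_mem_range_mulBy (f : V →ₗ[T] V) {x : V} (hx : x ∈ LinearMap.range (mulBy T V s)) :
    f x ∈ LinearMap.range (mulBy T V s) := by
  obtain ⟨v, rfl⟩ := hx
  exact ⟨f v, by rw [LinearMap.lsmul_apply, LinearMap.lsmul_apply, map_smul]⟩

/-- **Equivariance of `V ⧸ 𝔭 V ≅ s V`**: the isomorphism intertwines the maps induced by any
`T`-linear endomorphism of `V`. -/
theorem quotEquivRange_mapQ (hs : s ∉ 𝔭) (hann : ∀ t : T, t * s = 0 ↔ t ∈ 𝔭) (f : V →ₗ[T] V)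
    (x : V ⧸ 𝔭 • (⊤ : Submodule T V)) :
    ((quotEquivRange (V := V) hs hann (Submodule.mapQ _ _ f (smul_top_le_comap f) x) :
      LinearMap.range (mulBy T V s)) : V) = f (quotEquivRange (V := V) hs hann x : V) := by
  induction x using Submodule.Quotient.induction_on with
  | H v =>
    rw [Submodule.mapQ_apply, quotEquivRange_mk, quotEquivRange_mk, map_smul]

end Quot

end Fermat.Agent.S33P.MinPrime64
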