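/-
S33 programme, brick A4'-minp (767 (i)), second file: the quotient `Λ := V ⧸ 𝔞 V` of a free
`T`-module as a free module over `T ⧸ 𝔞`.

* `quotBasis 𝔞 b`        : the basis of `V ⧸ 𝔞 V` over `T ⧸ 𝔞` induced by a basis `b` of `V`;
* `quotEnd 𝔞 f`, `quotEndHom 𝔞` : the `T ⧸ 𝔞`-linear endomorphism induced by a `T`-linear one,
  as a ring homomorphism, with its matrix, determinant, trace;
* `quotEndHom_surjective`, `span_range_quotEnd_eq_top` : `End_T V → End_{T/𝔞} (V/𝔞V)` is onto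
  for `V` finite free, hence "`ρ(G)` spans `End V`" descends to `V ⧸ 𝔞 V`;
* `finrank_quot`, `isLocalRing_quot`, `isDomain_quot`.

Mathlib only.
-/
import Fermat.Agent.S33P.MinPrime64.Basic

noncomputable section

namespace Fermat.Agent.S33P.MinPrime64

open Module

section QuotFree

variable {T : Type*} [CommRing T] {V : Type*} [AddCommGroup V] [Module T V] (𝔞 : Ideal T)

/-- A `T`-linear endomorphism preserves `𝔞 V` (any ideal `𝔞`, any module `V`). -/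
theorem smul_top_le_comap_ideal (f : V →ₗ[T] V) :
    𝔞 • (⊤ : Submodule T V) ≤ (𝔞 • (⊤ : Submodule T V)).comap f := by
  intro x hx
  rw [Submodule.mem_comap]
  refine Submodule.smul_induction_on hx (fun r hr v _ => ?_) (fun y z hy hz => ?_)
  · rw [map_smul]
    exact Submodule.smul_mem_smul hr Submodule.mem_top
  · rw [map_add]
    exact Submodule.add_mem _ hy hz

theorem mk_smul_quot (t : T) (x : V ⧸ 𝔞 • (⊤ : Submodule T V)) :
    Ideal.Quotient.mk 𝔞 t • x = t • x := rfl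

/-- A `T`-linear map out of `V ⧸ 𝔞 V` into a `T ⧸ 𝔞`-module (with compatible actions) is
`T ⧸ 𝔞`-linear. -/
def extendQuot {W : Type*} [AddCommGroup W] [Module T W] [Module (T ⧸ 𝔞) W]
    [IsScalarTower T (T ⧸ 𝔞) W] (f : (V ⧸ 𝔞 • (⊤ : Submodule T V)) →ₗ[T] W) :
    (V ⧸ 𝔞 • (⊤ : Submodule T V)) →ₗ[T ⧸ 𝔞] W where
  toFun := f
  map_add' := map_add f
  map_smul' := by
    intro c x
    obtain ⟨c, rfl⟩ := Ideal.Quotient.mk_surjective c
    rw [mk_smul_quot, map_smul, RingHom.id_apply]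
    exact (algebraMap_smul (T ⧸ 𝔞) c (f x)).symm

@[simp] theorem extendQuot_apply {W : Type*} [AddCommGroup W] [Module T W] [Module (T ⧸ 𝔞) W]
    [IsScalarTower T (T ⧸ 𝔞) W] (f : (V ⧸ 𝔞 • (⊤ : Submodule T V)) →ₗ[T] W)
    (x : V ⧸ 𝔞 • (⊤ : Submodule T V)) : extendQuot 𝔞 f x = f x := rfl

instance isScalarTower_quot : IsScalarTower T (T ⧸ 𝔞) (V ⧸ 𝔞 • (⊤ : Submodule T V)) :=
  ⟨fun t c x => by
    obtain ⟨c, rfl⟩ := Ideal.Quotient.mk_surjective c
    rw [mk_smul_quot, Algebra.smul_def, Ideal.Quotient.algebraMap_eq, ← map_mul, mk_smul_quot,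
      mul_smul]⟩

/-- The `T ⧸ 𝔞`-linear endomorphism of `V ⧸ 𝔞 V` induced by a `T`-linear endomorphism of `V`. -/
def quotEnd (f : V →ₗ[T] V) : Module.End (T ⧸ 𝔞) (V ⧸ 𝔞 • (⊤ : Submodule T V)) :=
  extendQuot 𝔞 (Submodule.mapQ _ _ f (smul_top_le_comap_ideal 𝔞 f))

@[simp] theorem quotEnd_mk (f : V →ₗ[T] V) (v : V) :
    quotEnd 𝔞 f (Submodule.Quotient.mk v) = Submodule.Quotient.mk (f v) := rfl

theorem quotEnd_apply (f : V →ₗ[T] V) (x : V ⧸ 𝔞 • (⊤ : Submodule T V)) :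
    quotEnd 𝔞 f x = Submodule.mapQ _ _ f (smul_top_le_comap_ideal 𝔞 f) x := rfl

theorem quotEnd_ext {F F' : Module.End (T ⧸ 𝔞) (V ⧸ 𝔞 • (⊤ : Submodule T V))}
    (h : ∀ v : V, F (Submodule.Quotient.mk v) = F' (Submodule.Quotient.mk v)) : F = F' :=
  LinearMap.ext fun x => Submodule.Quotient.induction_on _ x h

/-- `f ↦ quotEnd 𝔞 f` as a ring homomorphism `End_T V →+* End_{T/𝔞} (V/𝔞V)`. -/
def quotEndHom : Module.End T V →+* Module.End (T ⧸ 𝔞) (V ⧸ 𝔞 • (⊤ : Submodule T V)) where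
  toFun := quotEnd 𝔞
  map_one' := quotEnd_ext 𝔞 fun v => by
    rw [quotEnd_mk, Module.End.one_apply, Module.End.one_apply]
  map_mul' f g := quotEnd_ext 𝔞 fun v => by
    rw [quotEnd_mk, Module.End.mul_apply, Module.End.mul_apply, quotEnd_mk, quotEnd_mk]
  map_zero' := quotEnd_ext 𝔞 fun v => by
    rw [quotEnd_mk, LinearMap.zero_apply, LinearMap.zero_apply, Submodule.Quotient.mk_zero]
  map_add' f g := quotEnd_ext 𝔞 fun v => by
    rw [quotEnd_mk, LinearMap.add_apply, LinearMap.add_apply, quotEnd_mk, quotEnd_mk,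
      Submodule.Quotient.mk_add]

@[simp] theorem quotEndHom_apply (f : V →ₗ[T] V) : quotEndHom 𝔞 f = quotEnd 𝔞 f := rfl

theorem quotEnd_smul (t : T) (f : V →ₗ[T] V) :
    quotEnd 𝔞 (t • f) = Ideal.Quotient.mk 𝔞 t • quotEnd 𝔞 f :=
  quotEnd_ext 𝔞 fun v => by
    rw [quotEnd_mk, LinearMap.smul_apply, LinearMap.smul_apply, quotEnd_mk, mk_smul_quot,
      Submodule.Quotient.mk_smul]

theorem quotEnd_one : quotEnd 𝔞 (1 : Module.End T V) = 1 := map_one (quotEndHom 𝔞)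

theorem quotEnd_mul (f g : Module.End T V) : quotEnd 𝔞 (f * g) = quotEnd 𝔞 f * quotEnd 𝔞 g :=
  map_mul (quotEndHom 𝔞) f g

theorem quotEnd_sub (f g : Module.End T V) : quotEnd 𝔞 (f - g) = quotEnd 𝔞 f - quotEnd 𝔞 g :=
  map_sub (quotEndHom 𝔞) f g

theorem quotEnd_add (f g : Module.End T V) : quotEnd 𝔞 (f + g) = quotEnd 𝔞 f + quotEnd 𝔞 g :=
  map_add (quotEndHom 𝔞) f g

/-- `quotEnd 𝔞 f = 0` iff `f` maps `V` into `𝔞 V`. -/
theorem quotEnd_eq_zero_iff (f : V →ₗ[T] V) :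
    quotEnd 𝔞 f = 0 ↔ ∀ v, f v ∈ 𝔞 • (⊤ : Submodule T V) := by
  constructor
  · intro h v
    have := LinearMap.congr_fun h (Submodule.Quotient.mk v)
    rwa [quotEnd_mk, LinearMap.zero_apply, Submodule.Quotient.mk_eq_zero] at this
  · intro h
    refine quotEnd_ext 𝔞 fun v => ?_
    rw [quotEnd_mk, LinearMap.zero_apply, Submodule.Quotient.mk_eq_zero]
    exact h v

/-- The representation on `V ⧸ 𝔞 V` induced by a representation on `V`. -/
def quotRep {G : Type*} [Monoid G] (ρ : G →* Module.End T V) :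
    G →* Module.End (T ⧸ 𝔞) (V ⧸ 𝔞 • (⊤ : Submodule T V)) :=
  ((quotEndHom 𝔞 (V := V)) : Module.End T V →* _).comp ρ

@[simp] theorem quotRep_apply {G : Type*} [Monoid G] (ρ : G →* Module.End T V) (g : G) :
    quotRep 𝔞 ρ g = quotEnd 𝔞 (ρ g) := rfl

theorem quotRep_mk {G : Type*} [Monoid G] (ρ : G →* Module.End T V) (g : G) (v : V) :
    quotRep 𝔞 ρ g (Submodule.Quotient.mk v) = Submodule.Quotient.mk (ρ g v) := rfl

/-! ### the induced basis -/

variable {ι : Type*} (b : Basis ι T V)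

/-- reduction of the coordinates modulo `𝔞`. -/
def coordMod : V →ₗ[T] (ι →₀ T ⧸ 𝔞) :=
  (Finsupp.mapRange.linearMap (Ideal.Quotient.mkₐ T 𝔞).toLinearMap) ∘ₗ b.repr.toLinearMap

theorem coordMod_apply (v : V) (i : ι) : coordMod 𝔞 b v i = Ideal.Quotient.mk 𝔞 (b.repr v i) := rfl

theorem ker_coordMod : LinearMap.ker (coordMod 𝔞 b) = 𝔞 • (⊤ : Submodule T V) := by
  ext x
  rw [LinearMap.mem_ker, mem_smul_top_iff_repr b, Finsupp.ext_iff]
  refine forall_congr' fun i => ?_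
  rw [coordMod_apply, Finsupp.zero_apply, Ideal.Quotient.eq_zero_iff_mem]

theorem coordMod_surjective : Function.Surjective (coordMod 𝔞 b) := by
  intro y
  obtain ⟨z, hz⟩ := Finsupp.mapRange_surjective (Ideal.Quotient.mk 𝔞) (map_zero _)
    Ideal.Quotient.mk_surjective y
  refine ⟨b.repr.symm z, ?_⟩
  ext i
  rw [coordMod_apply, LinearEquiv.apply_symm_apply, ← hz, Finsupp.mapRange_apply]

/-- `V ⧸ 𝔞 V ≃ (ι →₀ T ⧸ 𝔞)`, `T`-linearly. -/
def quotReprT : (V ⧸ 𝔞 • (⊤ : Submodule T V)) ≃ₗ[T] (ι →₀ T ⧸ 𝔞) :=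
  (Submodule.quotEquivOfEq _ _ (ker_coordMod 𝔞 b).symm).trans
    ((coordMod 𝔞 b).quotKerEquivOfSurjective (coordMod_surjective 𝔞 b))

theorem quotReprT_mk (v : V) (i : ι) :
    quotReprT 𝔞 b (Submodule.Quotient.mk v) i = Ideal.Quotient.mk 𝔞 (b.repr v i) := rfl

/-- `V ⧸ 𝔞 V ≃ (ι →₀ T ⧸ 𝔞)`, `T ⧸ 𝔞`-linearly. -/
def quotRepr : (V ⧸ 𝔞 • (⊤ : Submodule T V)) ≃ₗ[T ⧸ 𝔞] (ι →₀ T ⧸ 𝔞) :=
  { extendQuot 𝔞 (quotReprT 𝔞 b).toLinearMap with
    invFun := (quotReprT 𝔞 b).symm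
    left_inv := (quotReprT 𝔞 b).left_inv
    right_inv := (quotReprT 𝔞 b).right_inv }

/-- **The basis of `V ⧸ 𝔞 V` over `T ⧸ 𝔞`** induced by a basis of `V` over `T`. -/
def quotBasis : Basis ι (T ⧸ 𝔞) (V ⧸ 𝔞 • (⊤ : Submodule T V)) :=
  Basis.ofRepr (quotRepr 𝔞 b)

theorem quotBasis_repr_mk (v : V) (i : ι) :
    (quotBasis 𝔞 b).repr (Submodule.Quotient.mk v) i = Ideal.Quotient.mk 𝔞 (b.repr v i) := rfl

theorem quotBasis_apply (i : ι) : quotBasis 𝔞 b i = Submodule.Quotient.mk (b i) := by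
  apply (quotBasis 𝔞 b).repr.injective
  ext j
  rw [Basis.repr_self, quotBasis_repr_mk, Basis.repr_self]
  classical
  rw [Finsupp.single_apply, Finsupp.single_apply]
  split_ifs <;> simp

instance free_quot [Module.Free T V] : Module.Free (T ⧸ 𝔞) (V ⧸ 𝔞 • (⊤ : Submodule T V)) :=
  Module.Free.of_basis (quotBasis 𝔞 (Module.Free.chooseBasis T V))

theorem finrank_quot [Module.Free T V] [Nontrivial (T ⧸ 𝔞)] :
    Module.finrank (T ⧸ 𝔞) (V ⧸ 𝔞 • (⊤ : Submodule T V)) = Module.finrank T V := by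
  have : Nontrivial T := (Ideal.Quotient.mk 𝔞).domain_nontrivial
  rw [Module.finrank, Module.finrank,
    ← (quotBasis 𝔞 (Module.Free.chooseBasis T V)).mk_eq_rank'',
    ← (Module.Free.chooseBasis T V).mk_eq_rank'']

/-- `V ⧸ 𝔞 V` has a basis indexed by `Fin 2` over `T ⧸ 𝔞` when `V` has one over `T`
(no hypothesis on `𝔞`). -/
theorem nonempty_basis_quot (h : Nonempty (Basis ι T V)) :
    Nonempty (Basis ι (T ⧸ 𝔞) (V ⧸ 𝔞 • (⊤ : Submodule T V))) :=
  h.map (quotBasis 𝔞)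

/-! ### matrices, determinant, trace -/

section Matrix

variable [Fintype ι] [DecidableEq ι]

theorem toMatrix_quotEnd (f : V →ₗ[T] V) :
    LinearMap.toMatrix (quotBasis 𝔞 b) (quotBasis 𝔞 b) (quotEnd 𝔞 f) =
      (LinearMap.toMatrix b b f).map (Ideal.Quotient.mk 𝔞) := by
  ext i j
  rw [LinearMap.toMatrix_apply, quotBasis_apply, quotEnd_mk, quotBasis_repr_mk, Matrix.map_apply,
    LinearMap.toMatrix_apply]

theorem det_quotEnd' (b : Basis ι T V) (f : V →ₗ[T] V) :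
    LinearMap.det (quotEnd 𝔞 f) = Ideal.Quotient.mk 𝔞 (LinearMap.det f) := by
  rw [← LinearMap.det_toMatrix (quotBasis 𝔞 b), toMatrix_quotEnd, ← LinearMap.det_toMatrix b,
    RingHom.map_det, RingHom.mapMatrix_apply]

theorem trace_quotEnd' (b : Basis ι T V) (f : V →ₗ[T] V) :
    LinearMap.trace (T ⧸ 𝔞) _ (quotEnd 𝔞 f) = Ideal.Quotient.mk 𝔞 (LinearMap.trace T V f) := by
  rw [LinearMap.trace_eq_matrix_trace (T ⧸ 𝔞) (quotBasis 𝔞 b), toMatrix_quotEnd,
    LinearMap.trace_eq_matrix_trace T b, Matrix.trace, Matrix.trace, map_sum]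
  rfl

/-- every `T ⧸ 𝔞`-linear endomorphism of `V ⧸ 𝔞 V` is induced by a `T`-linear one of `V`. -/
theorem quotEnd_surjective' (b : Basis ι T V) : Function.Surjective (quotEnd 𝔞 (V := V)) := by
  intro F
  -- lift the matrix
  have hlift : ∀ c : T ⧸ 𝔞, ∃ t : T, Ideal.Quotient.mk 𝔞 t = c := Ideal.Quotient.mk_surjective
  choose lift hliftc using hlift
  let A : Matrix ι ι T := fun i j =>
    lift (LinearMap.toMatrix (quotBasis 𝔞 b) (quotBasis 𝔞 b) F i j)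
  refine ⟨Matrix.toLin b b A, ?_⟩
  apply (LinearMap.toMatrix (quotBasis 𝔞 b) (quotBasis 𝔞 b)).injective
  rw [toMatrix_quotEnd, LinearMap.toMatrix_toLin]
  ext i j
  rw [Matrix.map_apply]
  exact hliftc _

end Matrix

variable [Module.Free T V] [Module.Finite T V]

theorem det_quotEnd (f : V →ₗ[T] V) :
    LinearMap.det (quotEnd 𝔞 f) = Ideal.Quotient.mk 𝔞 (LinearMap.det f) := by
  classical
  rcases subsingleton_or_nontrivial T with h | h
  · haveI : Subsingleton (T ⧸ 𝔞) := (Ideal.Quotient.mk_surjective (I := 𝔞)).subsingleton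
    exact Subsingleton.elim _ _
  · exact det_quotEnd' 𝔞 (Module.Free.chooseBasis T V) f

theorem trace_quotEnd (f : V →ₗ[T] V) :
    LinearMap.trace (T ⧸ 𝔞) _ (quotEnd 𝔞 f) = Ideal.Quotient.mk 𝔞 (LinearMap.trace T V f) := by
  classical
  rcases subsingleton_or_nontrivial T with h | h
  · haveI : Subsingleton (T ⧸ 𝔞) := (Ideal.Quotient.mk_surjective (I := 𝔞)).subsingleton
    exact Subsingleton.elim _ _
  · exact trace_quotEnd' 𝔞 (Module.Free.chooseBasis T V) f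

theorem quotEnd_surjective : Function.Surjective (quotEnd 𝔞 (V := V)) := by
  classical
  rcases subsingleton_or_nontrivial T with h | h
  · haveI : Subsingleton (T ⧸ 𝔞) := (Ideal.Quotient.mk_surjective (I := 𝔞)).subsingleton
    have : Subsingleton (V ⧸ 𝔞 • (⊤ : Submodule T V)) := Module.subsingleton (T ⧸ 𝔞) _
    intro F
    exact ⟨0, Subsingleton.elim _ _⟩
  · exact quotEnd_surjective' 𝔞 (Module.Free.chooseBasis T V)

theorem quotEndHom_surjective : Function.Surjective (quotEndHom 𝔞 (V := V)) :=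
  quotEnd_surjective 𝔞

/-- **`hspan` descends**: if the image of `ρ` spans `End_T V` over `T`, then the image of the
induced representation spans `End_{T/𝔞} (V/𝔞V)` over `T ⧸ 𝔞`. -/
theorem span_range_quotEnd_eq_top {G : Type*} (ρ : G → Module.End T V)
    (hspan : Submodule.span T (Set.range ρ) = ⊤) :
    Submodule.span (T ⧸ 𝔞) (Set.range fun g => quotEnd 𝔞 (ρ g)) = ⊤ := by
  rw [eq_top_iff]
  intro F _
  obtain ⟨f, rfl⟩ := quotEnd_surjective 𝔞 F
  have hf : f ∈ Submodule.span T (Set.range ρ) := hspan ▸ Submodule.mem_top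
  refine Submodule.span_induction (p := fun f _ => quotEnd 𝔞 f ∈
    Submodule.span (T ⧸ 𝔞) (Set.range fun g => quotEnd 𝔞 (ρ g))) ?_ ?_ ?_ ?_ hf
  · rintro _ ⟨g, rfl⟩
    exact Submodule.subset_span ⟨g, rfl⟩
  · rw [show quotEnd 𝔞 (0 : Module.End T V) = 0 from map_zero (quotEndHom 𝔞)]
    exact Submodule.zero_mem _
  · intro x y _ _ hx hy
    rw [quotEnd_add]
    exact Submodule.add_mem _ hx hy
  · intro t x _ hx
    rw [quotEnd_smul]
    exact Submodule.smul_mem _ _ hx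

theorem span_range_quotRep_eq_top {G : Type*} [Monoid G] (ρ : G →* Module.End T V)
    (hspan : Submodule.span T (Set.range ρ) = ⊤) :
    Submodule.span (T ⧸ 𝔞) (Set.range (quotRep 𝔞 ρ)) = ⊤ :=
  span_range_quotEnd_eq_top 𝔞 ρ hspan

end QuotFree

/-! ### the ring `T ⧸ 𝔭` -/

section QuotRing

variable {T : Type*} [CommRing T]

theorem isLocalRing_quot [IsLocalRing T] (𝔞 : Ideal T) (h : 𝔞 ≠ ⊤) : IsLocalRing (T ⧸ 𝔞) :=
  haveI : Nontrivial (T ⧸ 𝔞) := Ideal.Quotient.nontrivial_iff.mpr h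
  IsLocalRing.of_surjective' (Ideal.Quotient.mk 𝔞) Ideal.Quotient.mk_surjective

theorem isDomain_quot (𝔭 : Ideal T) [𝔭.IsPrime] : IsDomain (T ⧸ 𝔭) := inferInstance

/-- the maximal ideal of `T ⧸ 𝔞` is the image of that of `T`. -/
theorem mk_mem_maximalIdeal_quot_iff [IsLocalRing T] (𝔞 : Ideal T) (h : 𝔞 ≠ ⊤) (t : T) :
    haveI := isLocalRing_quot 𝔞 h
    Ideal.Quotient.mk 𝔞 t ∈ IsLocalRing.maximalIdeal (T ⧸ 𝔞) ↔ t ∈ IsLocalRing.maximalIdeal T := by
  have := isLocalRing_quot 𝔞 h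
  have : IsLocalHom (Ideal.Quotient.mk 𝔞) :=
    IsLocalHom.of_surjective _ Ideal.Quotient.mk_surjective
  rw [IsLocalRing.mem_maximalIdeal, IsLocalRing.mem_maximalIdeal, mem_nonunits_iff,
    mem_nonunits_iff, isUnit_map_iff]

end QuotRing

end Fermat.Agent.S33P.MinPrime64
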